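import Fermat.Agent.JFin.Univ
import Fermat.Agent.JN19.Proper
import Fermat.Prelude.Def_JacJ1Iface

/-!
# S25, final assembly (2)
-/

set_option autoImplicit false

noncomputable section

universe u

open CategoryTheory CategoryTheory.Limits AlgebraicGeometry AlgebraicGeometry.RelPicard
  NeronModelInfra GoodReductionJacobian Fermat.Agent.JMod Fermat.Agent.JPb

namespace Fermat.Agent.JFin

theorem geometricallyConnected_of_geometricallyIntegral {X Y : Scheme.{u}} (f : X ⟶ Y)
    [GeometricallyIntegral f] : GeometricallyConnected f := by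
  constructor
  intro K _ y Z fst snd h
  have := GeometricallyIntegral.geometrically_isIntegral (f := f) y fst snd h
  infer_instance

section

variable {k : Type u} [Field k] {C : Scheme.{u}} {c : C ⟶ Spec (CommRingCat.of k)}
  {ε : SchemeHomOver (𝟙 (Spec (CommRingCat.of k))) c}

/-- first half of the comparison of algebraic equivalence with the identity component -/
def AE1 (c : C ⟶ Spec (CommRingCat.of k))
    (ε : SchemeHomOver (𝟙 (Spec (CommRingCat.of k))) c) : Prop :=
  ∀ {J : Scheme.{u}} (p : J ⟶ Spec (CommRingCat.of k)) (P : RigidifiedLineBundle c ε p)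
    (_ : ∀ {T : Scheme.{u}} (t : T ⟶ Spec (CommRingCat.of k)) (M : RigidifiedLineBundle c ε t),
      ∃! g : SchemeHomOver t p, Nonempty ((P.pullbackAlong g).L ≅ M.L))
    (z : SchemeHomOver (𝟙 (Spec (CommRingCat.of k))) p)
    (_ : Nonempty ((P.pullbackAlong z).L ≅ (RigidifiedLineBundle.unit (c := c) (ε := ε) (𝟙 _)).L))
    (U : J.Opens) (_ : IsClosed (U : Set J)) (_ : ∀ x, z.1 x ∈ U)
    {T : Scheme.{u}} (t : T ⟶ Spec (CommRingCat.of k)) (M : RigidifiedLineBundle c ε t)
    (_ : FibrewiseAlgEquivZero M) (g : SchemeHomOver t p)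
    (_ : Nonempty ((P.pullbackAlong g).L ≅ M.L)), ∀ x, g.1 x ∈ U

/-- second half of the comparison of algebraic equivalence with the identity component -/
def AE2 (c : C ⟶ Spec (CommRingCat.of k))
    (ε : SchemeHomOver (𝟙 (Spec (CommRingCat.of k))) c) : Prop :=
  ∀ {J : Scheme.{u}} (p : J ⟶ Spec (CommRingCat.of k)) (_ : LocallyOfFiniteType p)
    (_ : GeometricallyIntegral p) (P : RigidifiedLineBundle c ε p)
    (z : SchemeHomOver (𝟙 (Spec (CommRingCat.of k))) p)
    (_ : Nonempty ((P.pullbackAlong z).L ≅ (RigidifiedLineBundle.unit (c := c) (ε := ε) (𝟙 _)).L)),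
    FibrewiseAlgEquivZero P

end

section

variable {k : Type u} [Field k] {C : Scheme.{u}} {c : C ⟶ Spec (CommRingCat.of k)}
  {ε : SchemeHomOver (𝟙 (Spec (CommRingCat.of k))) c}

theorem pullbackAlong_comp {T T' T'' : Scheme.{u}} {t : T ⟶ Spec (CommRingCat.of k)}
    {t' : T' ⟶ Spec (CommRingCat.of k)} {t'' : T'' ⟶ Spec (CommRingCat.of k)}
    (M : RigidifiedLineBundle c ε t) (g : SchemeHomOver t' t) (g' : SchemeHomOver t'' t') :
    Nonempty (((M.pullbackAlong g).pullbackAlong g').L ≅ (M.pullbackAlong (postComp g g')).L) :=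
  ⟨(Scheme.Modules.pullbackComp _ _).app M.L ≪≫
    (Scheme.Modules.pullbackCongr (baseChangeSnd_comp c g g')).app M.L⟩

theorem pullbackAlong_congr_hom {T T' : Scheme.{u}} {t : T ⟶ Spec (CommRingCat.of k)}
    {t' : T' ⟶ Spec (CommRingCat.of k)} (M : RigidifiedLineBundle c ε t)
    {g g' : SchemeHomOver t' t} (e : g.1 = g'.1) :
    Nonempty ((M.pullbackAlong g).L ≅ (M.pullbackAlong g').L) := by
  obtain rfl : g = g' := Subtype.ext e
  exact ⟨Iso.refl _⟩

/-- the open immersion of `U` as a morphism over the base -/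
def ιU {J : Scheme.{u}} (p : J ⟶ Spec (CommRingCat.of k)) (U : J.Opens) :
    SchemeHomOver (U.ι ≫ p) p := ⟨U.ι, rfl⟩

/-- factorisation through `U` -/
def facU {J T : Scheme.{u}} {p : J ⟶ Spec (CommRingCat.of k)} {t : T ⟶ Spec (CommRingCat.of k)}
    (U : J.Opens) (g : SchemeHomOver t p) (h : ∀ x, g.1 x ∈ U) : SchemeHomOver t (U.ι ≫ p) :=
  ⟨JNa.liftU U g.1 h, by rw [JNa.liftU_ι_assoc]; exact g.2⟩

theorem postComp_facU {J T : Scheme.{u}} {p : J ⟶ Spec (CommRingCat.of k)}
    {t : T ⟶ Spec (CommRingCat.of k)} (U : J.Opens) (g : SchemeHomOver t p)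
    (h : ∀ x, g.1 x ∈ U) : postComp (ιU p U) (facU U g h) = g :=
  Subtype.ext (JNa.liftU_ι U g.1 h)

/-- **final assembly**: representability of the cut by the identity component -/
theorem exists_of_identityComponent {J : Scheme.{u}} (p : J ⟶ Spec (CommRingCat.of k))
    [Smooth p] (P : RigidifiedLineBundle c ε p)
    (huniv : ∀ {T : Scheme.{u}} (t : T ⟶ Spec (CommRingCat.of k))
      (M : RigidifiedLineBundle c ε t), ∃! g : SchemeHomOver t p,
        Nonempty ((P.pullbackAlong g).L ≅ M.L))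
    (z : SchemeHomOver (𝟙 (Spec (CommRingCat.of k))) p)
    (hz : Nonempty ((P.pullbackAlong z).L ≅
      (RigidifiedLineBundle.unit (c := c) (ε := ε) (𝟙 _)).L))
    (U : J.Opens) (hU : IsClosed (U : Set J)) (h0 : ∀ x, z.1 x ∈ U)
    (hprop : IsProper (U.ι ≫ p)) (hgi : GeometricallyIntegral (U.ι ≫ p))
    (hAE1 : AE1 c ε) (hAE2 : AE2 c ε) :
    ∃ D : RelativePic0Designation k c,
      Nonempty (RepresentsRelSubPic c ε (algEquivZeroCut c ε) D) ∧
        Smooth D.toBase ∧ IsProper D.toBase ∧ GeometricallyConnected D.toBase := by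
  have hsm : Smooth (U.ι ≫ p) := inferInstance
  let D : RelativePic0Designation k c :=
    { P := U
      toBase := U.ι ≫ p
      zeroSection := (facU U z h0).1
      zeroSection_toBase := (facU U z h0).2 }
  have hz' : Nonempty (((P.pullbackAlong (ιU p U)).pullbackAlong (facU U z h0)).L ≅
      (RigidifiedLineBundle.unit (c := c) (ε := ε) (𝟙 _)).L) := by
    obtain ⟨e1⟩ := pullbackAlong_comp P (ιU p U) (facU U z h0)
    obtain ⟨e2⟩ := pullbackAlong_congr_hom P (congrArg Subtype.val (postComp_facU U z h0))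
    exact ⟨e1 ≪≫ e2 ≪≫ hz.some⟩
  refine ⟨D, ⟨?_⟩, hsm, hprop, geometricallyConnected_of_geometricallyIntegral _⟩
  refine
    { poincare := P.pullbackAlong (ιU p U)
      poincare_mem := hAE2 (U.ι ≫ p) inferInstance hgi _ (facU U z h0) hz'
      univ := ?_
      zero := hz' }
  intro T t M hM
  obtain ⟨g, hg, hg'⟩ := huniv t M
  have hgU := hAE1 p P huniv z hz U hU h0 t M hM g hg
  refine ⟨facU U g hgU, ?_, ?_⟩
  · obtain ⟨e1⟩ := pullbackAlong_comp P (ιU p U) (facU U g hgU)
    obtain ⟨e2⟩ := pullbackAlong_congr_hom P (congrArg Subtype.val (postComp_facU U g hgU))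
    exact ⟨e1 ≪≫ e2 ≪≫ hg.some⟩
  · intro g₁ h₁
    have h₂ : postComp (ιU p U) g₁ = g := by
      refine hg' _ ?_
      obtain ⟨e1⟩ := pullbackAlong_comp P (ιU p U) g₁
      exact ⟨e1.symm ≪≫ h₁.some⟩
    apply Subtype.ext
    have h₃ : g₁.1 ≫ U.ι = (facU U g hgU).1 ≫ U.ι :=
      (congrArg Subtype.val h₂).trans (congrArg Subtype.val (postComp_facU U g hgU)).symm
    exact (cancel_mono U.ι).1 h₃

end

section

variable {k : Type u} [Field k] [IsAlgClosed k] {C : Scheme.{u}}
  {c : C ⟶ Spec (CommRingCat.of k)} {ε : SchemeHomOver (𝟙 (Spec (CommRingCat.of k))) c}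

/-- **final assembly** from the representability of the full rigidified Picard functor. -/
theorem result_of {J : Scheme.{u}} (p : J ⟶ Spec (CommRingCat.of k)) [Smooth p]
    (u : H1 (pullback c p)) (hu : H1.map (rigSection c p ε) u = 1)
    (univ : ∀ {T : Scheme.{u}} (t : T ⟶ Spec (CommRingCat.of k)) (h : H1 (pullback c t)),
      H1.map (rigSection c t ε) h = 1 → ∃! g : SchemeHomOver t p, H1.map (baseChangeSnd c g) u = h)
    (hex : ValuativeCriterion.Existence p) (hun : ValuativeCriterion.Uniqueness p)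
    (L : RelativeGroupLaw k p)
    (hL : H1.map (baseChangeSnd c (L.one (𝟙 (Spec (CommRingCat.of k))))) u = 1)
    (hAE1 : AE1 c ε) (hAE2 : AE2 c ε) :
    ∃ D : RelativePic0Designation k c,
      Nonempty (RepresentsRelSubPic c ε (algEquivZeroCut c ε) D) ∧
        Smooth D.toBase ∧ IsProper D.toBase ∧ GeometricallyConnected D.toBase := by
  obtain ⟨P, hP⟩ := exists_rcl u hu
  let z := L.one (𝟙 (Spec (CommRingCat.of k)))
  have hz : Nonempty ((P.pullbackAlong z).L ≅
      (RigidifiedLineBundle.unit (c := c) (ε := ε) (𝟙 _)).L) := by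
    rw [← rcl_eq_iff, rcl_pullbackAlong, hP, rcl_unit]
    exact hL
  let x₀ : Spec (CommRingCat.of k) := IsLocalRing.closedPoint k
  obtain ⟨U, hxU, hU, hint⟩ := JN19.exists_idComp p (z.1 x₀)
  have h0 : ∀ x, z.1 x ∈ U := by
    intro x
    have : x = x₀ := Subsingleton.elim (α := PrimeSpectrum k) _ _
    rw [this]
    exact hxU
  have hprop : IsProper (U.ι ≫ p) := JN19.isProper_of_groupLaw p L hex hun U hU h0
  have hgi : GeometricallyIntegral (U.ι ≫ p) := JN19.geometricallyIntegral_of_isIntegral _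
  exact exists_of_identityComponent p P (fun t M => univ_of_H1 univ P hP M) z hz U hU h0 hprop hgi
    hAE1 hAE2

end

end Fermat.Agent.JFin

end
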