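import Fermat.Agent.JFin.Asm
import Fermat.Agent.JC.Fun
import Fermat.Agent.JNg.Group
import Fermat.Agent.JL.Uniq
import Fermat.Agent.JH.GInst
import Fermat.Agent.JAE.AE2

/-!
# S25, final assembly (3): everything from the dictionary and the statements F, I, K, M
-/

set_option autoImplicit false

noncomputable section

universe u

open CategoryTheory CategoryTheory.Limits AlgebraicGeometry AlgebraicGeometry.RelPicard
  NeronModelInfra GoodReductionJacobian Fermat.Agent.JMod Fermat.Agent.JPb Fermat.Agent.JPC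

namespace Fermat.Agent.JFin

/-- block AE2 -/
theorem ae2 {k : Type u} [Field k] {C : Scheme.{u}} (c : C ⟶ Spec (CommRingCat.of k))
    (ε : SchemeHomOver (𝟙 (Spec (CommRingCat.of k))) c) : AE2 c ε := by
  intro J p _ _ P z hz
  exact JAE.fibrewiseAlgEquivZero_of_geomIntegral p P z hz

/-- block K for the functor: the representing scheme is smooth -/
def SmoothStmt {k : Type u} [Field k] {C : Scheme.{u}} (c : C ⟶ Spec (CommRingCat.of k))
    (ε : SchemeHomOver (𝟙 (Spec (CommRingCat.of k))) c) : Prop :=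
  ∀ {J : Scheme.{u}} (p : J ⟶ Spec (CommRingCat.of k)) (univ : (JC.P c ε).obj p)
    (_ : ∀ {T : Scheme.{u}} (t : T ⟶ Spec (CommRingCat.of k)) (h : (JC.P c ε).obj t),
      ∃! g : SchemeHomOver t p, (JC.P c ε).map g univ = h) (_ : LocallyOfFiniteType p), Smooth p

/-- block M for the functor: the representing scheme satisfies the existence part of the
valuative criterion -/
def ExistStmt {k : Type u} [Field k] {C : Scheme.{u}} (c : C ⟶ Spec (CommRingCat.of k))
    (ε : SchemeHomOver (𝟙 (Spec (CommRingCat.of k))) c) : Prop :=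
  ∀ {J : Scheme.{u}} (p : J ⟶ Spec (CommRingCat.of k)) (univ : (JC.P c ε).obj p)
    (_ : ∀ {T : Scheme.{u}} (t : T ⟶ Spec (CommRingCat.of k)) (h : (JC.P c ε).obj t),
      ∃! g : SchemeHomOver t p, (JC.P c ε).map g univ = h), ValuativeCriterion.Existence p

variable {k : Type u} [Field k] [IsAlgClosed k] {C : Scheme.{u}}
  {c : C ⟶ Spec (CommRingCat.of k)} [IsProper c] [IsIntegral C]
  {ε : SchemeHomOver (𝟙 (Spec (CommRingCat.of k))) c}

/-- **final assembly** -/
theorem result_of_stmts {X : TwoChart k} (D : JH.Dict X (JC.P c ε)) (hF : FStmt X)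
    (hI : CoverStmt X) (hK : SmoothStmt c ε) (hM : ExistStmt c ε) (hAE1 : AE1 c ε) :
    ∃ D : RelativePic0Designation k c,
      Nonempty (RepresentsRelSubPic c ε (algEquivZeroCut c ε) D) ∧
        Smooth D.toBase ∧ IsProper D.toBase ∧ GeometricallyConnected D.toBase := by
  obtain ⟨J, p, univ, hu, hft⟩ := JH.exists_J D (fun ι => JH.chartAlg ι) (JH.gFacts X)
    (JC.P_map_mul c ε) (JC.isZ_P c ε) hF hI
  have : Smooth p := hK p univ hu hft
  have hex := hM p univ hu
  have hun := JL.uniqueness_of_dict D p univ hu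
  have hL := JNg.map_groupLaw_one (JC.P c ε) (JC.P_map_mul c ε) hu
    (𝟙 (Spec (CommRingCat.of k)))
  refine result_of p univ.1 univ.2 (fun t h hh => ?_) hex hun
    (JNg.groupLaw (JC.P c ε) (JC.P_map_mul c ε) hu) (congrArg Subtype.val hL) hAE1 (ae2 c ε)
  obtain ⟨g, hg, hg'⟩ := hu t ⟨h, hh⟩
  exact ⟨g, congrArg Subtype.val hg, fun g' h' => hg' g' (Subtype.ext h')⟩

end Fermat.Agent.JFin

end
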