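import Fermat.Agent.JFin.Final
import Fermat.Agent.JAE.AE1
import Fermat.Agent.JSm.Smooth
import Fermat.Agent.JKL.K4
import Fermat.Agent.JCd.Two

/-!
# S25, final assembly (4): everything from the dictionary and the statements F, I, M
-/

set_option autoImplicit false

noncomputable section

universe u

open CategoryTheory CategoryTheory.Limits AlgebraicGeometry AlgebraicGeometry.RelPicard
  NeronModelInfra GoodReductionJacobian Fermat.Agent.JMod Fermat.Agent.JPb Fermat.Agent.JPC

namespace Fermat.Agent.JFin

/-- block AE1 -/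
theorem ae1 {k : Type u} [Field k] {C : Scheme.{u}} (c : C ⟶ Spec (CommRingCat.of k))
    (ε : SchemeHomOver (𝟙 (Spec (CommRingCat.of k))) c) : AE1 c ε := by
  intro J p P huniv z hz U hc h0 T t M hM g hg
  exact JAE.mem_of_fibrewiseAlgEquivZero p P huniv z hz U hc h0 t M hM g hg

variable {k : Type u} [Field k] [IsAlgClosed k] {C : Scheme.{u}}
  {c : C ⟶ Spec (CommRingCat.of k)} [IsProper c]
  {ε : SchemeHomOver (𝟙 (Spec (CommRingCat.of k))) c}

omit [IsAlgClosed k] [IsProper c] in
/-- block K -/
theorem smoothStmt_of_dict {X : TwoChart k} (D : JH.Dict X (JC.P c ε)) : SmoothStmt c ε := by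
  intro J p univ hu _
  exact JSm.smooth_of_dict D (JKL.liftStmt X) p univ hu

/-- **final assembly** -/
theorem result_of_dict [IsIntegral C] {X : TwoChart k} (D : JH.Dict X (JC.P c ε))
    (hF : FStmt X) (hI : CoverStmt X) (hM : ExistStmt c ε) :
    ∃ D : RelativePic0Designation k c,
      Nonempty (RepresentsRelSubPic c ε (algEquivZeroCut c ε) D) ∧
        Smooth D.toBase ∧ IsProper D.toBase ∧ GeometricallyConnected D.toBase :=
  result_of_stmts D hF hI (smoothStmt_of_dict D) hM (ae1 c ε)

/-- **final assembly**: the statement S25 from the dictionary, F, I and M -/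
theorem s25_of [SmoothOfRelativeDimension 1 c] [IsIntegral C]
    (hD : ∀ {X : TwoChart k} (_ : JCB.Chart c ε X), Nonempty (JH.Dict X (JC.P c ε)))
    (hF : ∀ X : TwoChart k, FStmt X) (hI : ∀ X : TwoChart k, CoverStmt X)
    (hM : ExistStmt c ε) :
    ∃ D : RelativePic0Designation k c,
      Nonempty (RepresentsRelSubPic c ε (algEquivZeroCut c ε) D) ∧
        Smooth D.toBase ∧ IsProper D.toBase ∧ GeometricallyConnected D.toBase := by
  obtain ⟨X, ⟨ch⟩⟩ := JCd.exists_chart ε
  obtain ⟨D⟩ := hD ch
  exact result_of_dict D (hF X) (hI X) hM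

end Fermat.Agent.JFin

end
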