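import Fermat.Agent.JFin.Final2
import Fermat.Agent.JDict.Main
import Fermat.Agent.JTw.Rig
import Fermat.Agent.JTw.Tens
import Fermat.Agent.JM17.Pt
import Fermat.Agent.JM.Pt

/-!
# S25, final assembly (5): everything from the statements F and I
-/

set_option autoImplicit false

noncomputable section

universe u

open CategoryTheory CategoryTheory.Limits AlgebraicGeometry AlgebraicGeometry.RelPicard
  NeronModelInfra GoodReductionJacobian Fermat.Agent.JMod Fermat.Agent.JPb Fermat.Agent.JPC

namespace Fermat.Agent.JFin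

/-- the dictionary -/
def dict {k : Type u} [Field k] {C : Scheme.{u}} {c : C ⟶ Spec (CommRingCat.of k)}
    {ε : SchemeHomOver (𝟙 (Spec (CommRingCat.of k))) c} {X : TwoChart k}
    (ch : JCB.Chart c ε X) : JH.Dict X (JC.P c ε) :=
  JDict.dict_of ch (JTw.isLine_triv X) (fun N hN => JTw.nonempty_rig N hN)
    (fun _ _ _ L n l => JTw.tens_twist L n l)

variable {k : Type u} [Field k] [IsAlgClosed k] {C : Scheme.{u}}
  {c : C ⟶ Spec (CommRingCat.of k)} [IsProper c] [SmoothOfRelativeDimension 1 c] [IsIntegral C]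
  {ε : SchemeHomOver (𝟙 (Spec (CommRingCat.of k))) c}

/-- block M -/
theorem existStmt : ExistStmt c ε := by
  intro J p univ hu
  obtain ⟨L, hL⟩ := JM.exists_delta_gen c ε
  refine JM17.existence_of_delta (ε := ε) H1 (fun f => H1.map f) (fun h => H1.map_id h)
    (fun f g h => H1.map_comp f g h) (H1.mk L) (fun K _ _ s h => hL K s h) p univ.1 univ.2
    (fun t h hh => ?_)
  obtain ⟨g, hg, hg'⟩ := hu t ⟨h, hh⟩
  exact ⟨g, congrArg Subtype.val hg, fun g' h' => hg' g' (Subtype.ext h')⟩

/-- **final assembly**: the statement S25 from F and I -/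
theorem s25_of_FI (hF : ∀ X : TwoChart k, FStmt X) (hI : ∀ X : TwoChart k, CoverStmt X) :
    ∃ D : RelativePic0Designation k c,
      Nonempty (RepresentsRelSubPic c ε (algEquivZeroCut c ε) D) ∧
        Smooth D.toBase ∧ IsProper D.toBase ∧ GeometricallyConnected D.toBase :=
  s25_of (fun ch => ⟨dict ch⟩) hF hI existStmt

end Fermat.Agent.JFin

end
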