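import Fermat.Agent.JPb.Cl
import Fermat.Agent.JMod.H1Group
import Fermat.Prelude.Def_AlgebraicGeometry_RelPicardAlgEquivZeroCut

/-!
# S25, final assembly (1): from classes in `H1` to rigidified line bundles
-/

set_option autoImplicit false

noncomputable section

universe u

open CategoryTheory CategoryTheory.Limits AlgebraicGeometry AlgebraicGeometry.RelPicard
  NeronModelInfra Fermat.Agent.JMod Fermat.Agent.JPb

namespace Fermat.Agent.JFin

theorem cl_pullback {X Y : Scheme.{u}} (f : X ⟶ Y) (M : Y.Modules)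
    (hM : Scheme.Modules.IsInvertible M)
    (hM' : Scheme.Modules.IsInvertible ((Scheme.Modules.pullback f).obj M)) :
    cl ((Scheme.Modules.pullback f).obj M) hM' = H1.map f (cl M hM) := by
  obtain ⟨c, hc, h1⟩ := isFrm_of_cl_eq_mk' hM
  rw [cl_pullback_mk f hc hM', h1, H1.map_mk]

theorem cl_unit (X : Scheme.{u}) (h : Scheme.Modules.IsInvertible (un X)) :
    cl (un X) h = 1 := (cl_unit_mk X h).trans H1.mk_one

section

variable {k : Type u} [CommRing k] {C : Scheme.{u}} {c : C ⟶ Spec (CommRingCat.of k)}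
  {ε : SchemeHomOver (𝟙 (Spec (CommRingCat.of k))) c} {T T' : Scheme.{u}}
  {t : T ⟶ Spec (CommRingCat.of k)} {t' : T' ⟶ Spec (CommRingCat.of k)}

/-- the class of a rigidified line bundle -/
def rcl (M : RigidifiedLineBundle c ε t) : H1 (pullback c t) := cl M.L M.isInvertible

theorem rcl_eq_iff (M N : RigidifiedLineBundle c ε t) :
    rcl M = rcl N ↔ Nonempty (M.L ≅ N.L) := cl_eq_iff _ _ _ _

theorem rcl_rig (M : RigidifiedLineBundle c ε t) : H1.map (rigSection c t ε) (rcl M) = 1 := by
  have h := M.isInvertible.pullback (rigSection c t ε)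
  rw [rcl, ← cl_pullback (rigSection c t ε) M.L M.isInvertible h,
    ← cl_unit T (Scheme.Modules.isInvertible_unit T), cl_eq_iff]
  exact M.rigidified

theorem exists_rcl (h : H1 (pullback c t)) (hh : H1.map (rigSection c t ε) h = 1) :
    ∃ M : RigidifiedLineBundle c ε t, rcl M = h := by
  obtain ⟨M, hM, rfl⟩ := exists_cl h
  refine ⟨⟨M, hM, ?_⟩, rfl⟩
  have h := hM.pullback (rigSection c t ε)
  rw [← cl_pullback (rigSection c t ε) M hM h,
    ← cl_unit T (Scheme.Modules.isInvertible_unit T), cl_eq_iff] at hh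
  exact hh

theorem rcl_pullbackAlong (M : RigidifiedLineBundle c ε t) (g : SchemeHomOver t' t) :
    rcl (M.pullbackAlong g) = H1.map (baseChangeSnd c g) (rcl M) :=
  cl_pullback _ _ _ _

theorem rcl_unit (t : T ⟶ Spec (CommRingCat.of k)) :
    rcl (RigidifiedLineBundle.unit (c := c) (ε := ε) t) = 1 := cl_unit _ _

/-- universal property in terms of line bundles -/
theorem univ_of_H1 {J : Scheme.{u}} {p : J ⟶ Spec (CommRingCat.of k)} {u : H1 (pullback c p)}
    (univ : ∀ {T : Scheme.{u}} (t : T ⟶ Spec (CommRingCat.of k)) (h : H1 (pullback c t)),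
      H1.map (rigSection c t ε) h = 1 → ∃! g : SchemeHomOver t p, H1.map (baseChangeSnd c g) u = h)
    (P : RigidifiedLineBundle c ε p) (hP : rcl P = u) (M : RigidifiedLineBundle c ε t) :
    ∃! g : SchemeHomOver t p, Nonempty ((P.pullbackAlong g).L ≅ M.L) := by
  have key : ∀ g : SchemeHomOver t p, Nonempty ((P.pullbackAlong g).L ≅ M.L) ↔
      H1.map (baseChangeSnd c g) u = rcl M := by
    intro g
    rw [← rcl_eq_iff, rcl_pullbackAlong, hP]
  obtain ⟨g, hg, hg'⟩ := univ t (rcl M) (rcl_rig M)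
  exact ⟨g, (key g).2 hg, fun g' h => hg' g' ((key g').1 h)⟩

end

end Fermat.Agent.JFin

end
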